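import Fermat.Agent.OdoniSylvester.Galois
import Mathlib.Data.Fintype.BigOperators

/-!
# The fixed roots of the iterates

For `X² - X + 1` every lift of an automorphism of the `m`-th field with every choice of signs
occurs, so the generating function of the number of fixed roots at level `m + 1` is that of level
`m` at `(1 + z ^ 2) / 2`.
-/

set_option autoImplicit false

noncomputable section

open Polynomial IntermediateField Finset
open scoped Classical

open FA.Arboreal (Qbar sqrtQbar sqrtQbar_sq)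

namespace FA.OdoniSylvester

attribute [local instance] FA.Arboreal.isAlgebraic_qbar

/-- The maps of the roots of the `m`-th iterate induced by automorphisms. -/
def treeMaps (m : ℕ) : Set (iterRoots m → Qbar) :=
  Set.range fun (Φ : Qbar ≃ₐ[ℚ] Qbar) (β : iterRoots m) => Φ (β : Qbar)

theorem apply_mem_iterRoots (Φ : Qbar ≃ₐ[ℚ] Qbar) {m : ℕ} {β : Qbar}
    (hβ : β ∈ iterRoots m) : Φ β ∈ iterRoots m := by
  rw [mem_iterRoots] at hβ ⊢
  show aeval (Φ.toAlgHom β) (iterPoly m) = 0
  rw [aeval_algHom_apply Φ.toAlgHom β, hβ, map_zero]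

theorem finite_treeMaps (m : ℕ) : (treeMaps m).Finite := by
  refine (Set.finite_range fun (g : iterRoots m → iterRoots m) (β : iterRoots m) =>
    (g β : Qbar)).subset ?_
  rintro _ ⟨Φ, rfl⟩
  exact ⟨fun β => ⟨Φ β, apply_mem_iterRoots Φ β.2⟩, rfl⟩

/-- The finite set of these maps. -/
def treeFinset (m : ℕ) : Finset (iterRoots m → Qbar) := (finite_treeMaps m).toFinset

theorem mem_treeFinset {m : ℕ} {f : iterRoots m → Qbar} :
    f ∈ treeFinset m ↔ ∃ Φ : Qbar ≃ₐ[ℚ] Qbar, ∀ β : iterRoots m, f β = Φ β := by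
  rw [treeFinset, Set.Finite.mem_toFinset]
  exact ⟨fun ⟨Φ, h⟩ => ⟨Φ, fun β => (congrFun h β).symm⟩,
    fun ⟨Φ, h⟩ => ⟨Φ, funext fun β => (h β).symm⟩⟩

/-- The number of roots fixed. -/
def fixCount {m : ℕ} (f : iterRoots m → Qbar) : ℕ :=
  (univ.filter fun β : iterRoots m => f β = β).card

theorem normal_iterField (m : ℕ) : Normal ℚ (iterField m) :=
  haveI := isSplittingField_iterField m
  Normal.of_isSplittingField (iterPoly m)

/-- The map of the roots induced by an automorphism of the `m`-th field. -/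
def toMap {m : ℕ} (σ : iterField m ≃ₐ[ℚ] iterField m) : iterRoots m → Qbar :=
  fun β => ((σ ⟨β, subset_adjoin ℚ _ β.2⟩ : iterField m) : Qbar)

theorem bijOn_toMap (m : ℕ) :
    Set.BijOn (toMap (m := m)) Set.univ (treeFinset m) := by
  haveI := normal_iterField m
  haveI : IsAlgClosure ℚ Qbar := ⟨inferInstance, inferInstance⟩
  haveI : Normal ℚ Qbar := IsAlgClosure.normal ℚ Qbar
  refine ⟨fun σ _ => mem_treeFinset.2 ⟨σ.liftNormal Qbar, fun β =>
      (σ.liftNormal_commutes Qbar ⟨β, subset_adjoin ℚ _ β.2⟩).symm⟩,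
    fun σ _ σ' _ e => ?_, fun f hf => ?_⟩
  · refine AlgEquiv.ext fun x => Subtype.ext ?_
    have key : ∀ (y : Qbar) (hy : y ∈ iterField m),
        ((σ ⟨y, hy⟩ : iterField m) : Qbar) = σ' ⟨y, hy⟩ := fun y hy => by
      induction hy using IntermediateField.adjoin_induction with
      | mem r hr => exact congrFun e ⟨r, hr⟩
      | algebraMap q =>
        exact (congrArg Subtype.val (σ.commutes q)).trans
          (congrArg Subtype.val (σ'.commutes q)).symm
      | add r s hr hs e1 e2 =>
        show ((σ (⟨r, hr⟩ + ⟨s, hs⟩) : iterField m) : Qbar) = σ' (⟨r, hr⟩ + ⟨s, hs⟩)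
        rw [map_add, map_add, IntermediateField.coe_add, IntermediateField.coe_add, e1, e2]
      | inv r hr e1 =>
        show ((σ (⟨r, hr⟩)⁻¹ : iterField m) : Qbar) = σ' (⟨r, hr⟩)⁻¹
        rw [map_inv₀, map_inv₀, IntermediateField.coe_inv, IntermediateField.coe_inv, e1]
      | mul r s hr hs e1 e2 =>
        show ((σ (⟨r, hr⟩ * ⟨s, hs⟩) : iterField m) : Qbar) = σ' (⟨r, hr⟩ * ⟨s, hs⟩)
        rw [map_mul, map_mul, IntermediateField.coe_mul, IntermediateField.coe_mul, e1, e2]
    exact key x.1 x.2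
  · obtain ⟨Φ, hΦ⟩ := mem_treeFinset.1 hf
    refine ⟨Φ.restrictNormal (iterField m), Set.mem_univ _, funext fun β => ?_⟩
    rw [hΦ β]
    exact Φ.restrictNormal_commutes (iterField m) ⟨β, subset_adjoin ℚ _ β.2⟩

theorem card_treeFinset (m : ℕ) :
    (treeFinset m).card = Module.finrank ℚ (iterField m) := by
  haveI := normal_iterField m
  haveI := finiteDimensional_iterField m
  haveI : IsGalois ℚ (iterField m) := ⟨⟩
  rw [← IsGalois.card_aut_eq_finrank, ← Nat.card_eq_finsetCard]
  exact (Nat.card_congr ((bijOn_toMap m).equiv _)).symm.trans Nat.card_univ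

/-- The chosen root above `β`. -/
def lowerRoot {m : ℕ} (β : iterRoots m) : iterRoots (m + 1) :=
  ⟨(rootsAbove β).1, by
    rw [mem_iterRoots_succ, (rootsAbove_spec _).1]; exact β.2⟩

theorem lowerRoot_sq {m : ℕ} (β : iterRoots m) :
    (lowerRoot β : Qbar) ^ 2 - lowerRoot β + 1 = β :=
  (rootsAbove_spec _).1

theorem two_mul_lowerRoot_sub_one {m : ℕ} (β : iterRoots m) :
    2 * (lowerRoot β : Qbar) - 1 = sqrtQbar (4 * β - 3) := by
  show 2 * ((1 + sqrtQbar (4 * (β : Qbar) - 3)) / 2) - 1 = _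
  ring

/-- The map below and the signs. -/
def split {m : ℕ} (f : iterRoots (m + 1) → Qbar) :
    (iterRoots m → Qbar) × (iterRoots m → Bool) :=
  (fun β => f (lowerRoot β) ^ 2 - f (lowerRoot β) + 1,
    fun β => decide (2 * f (lowerRoot β) - 1 = sqrtQbar ((2 * f (lowerRoot β) - 1) ^ 2)))

theorem split_fst {m : ℕ} {f : iterRoots (m + 1) → Qbar} {Φ : Qbar ≃ₐ[ℚ] Qbar}
    (hΦ : ∀ r : iterRoots (m + 1), f r = Φ r) (β : iterRoots m) :
    (split f).1 β = Φ β := by
  show f (lowerRoot β) ^ 2 - f (lowerRoot β) + 1 = Φ β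
  rw [hΦ, ← map_pow, ← map_sub, ← map_one Φ, ← map_add, lowerRoot_sq]

theorem eq_lowerRoot_or_neg {m : ℕ} (r : iterRoots (m + 1)) :
    ∃ β : iterRoots m, (β : Qbar) = (r : Qbar) ^ 2 - r + 1 ∧
      ((r : Qbar) = lowerRoot β ∨ (r : Qbar) = 1 - (lowerRoot β : Qbar)) := by
  obtain ⟨β, hβ⟩ : ∃ β : iterRoots m, (β : Qbar) = (r : Qbar) ^ 2 - r + 1 :=
    ⟨⟨_, mem_iterRoots_succ.1 r.2⟩, rfl⟩
  refine ⟨β, hβ, ?_⟩
  have h := lowerRoot_sq β
  rw [hβ] at h
  have h' : ((r : Qbar) - lowerRoot β) * ((r : Qbar) + lowerRoot β - 1) = 0 := by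
    linear_combination -h
  rcases mul_eq_zero.1 h' with e | e
  · exact Or.inl (sub_eq_zero.1 e)
  · exact Or.inr (by linear_combination e)

theorem split_injOn (m : ℕ) : Set.InjOn (split (m := m)) (treeFinset (m + 1)) := by
  intro f hf g hg e
  obtain ⟨Φ, hΦ⟩ := mem_treeFinset.1 hf
  obtain ⟨Ψ, hΨ⟩ := mem_treeFinset.1 hg
  have key : ∀ β : iterRoots m, f (lowerRoot β) = g (lowerRoot β) := fun β => by
    obtain ⟨u, hu⟩ : ∃ u, u = 2 * f (lowerRoot β) - 1 := ⟨_, rfl⟩
    obtain ⟨v, hv⟩ : ∃ v, v = 2 * g (lowerRoot β) - 1 := ⟨_, rfl⟩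
    have e1 : u ^ 2 = v ^ 2 := by
      have := congrFun (congrArg Prod.fst e) β
      simp only [split] at this
      rw [hu, hv]
      linear_combination 4 * this
    have e2 := congrFun (congrArg Prod.snd e) β
    simp only [split, decide_eq_decide, ← hu, ← hv] at e2
    rw [← e1] at e2
    suffices huv : u = v by rw [hu, hv] at huv; linear_combination huv / 2
    rcases sq_eq_sq_iff_eq_or_eq_neg.1 e1 with h' | h'
    · exact h'
    rcases sq_eq_sq_iff_eq_or_eq_neg.1 (sqrtQbar_sq (u ^ 2)) with h'' | h''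
    · exact (h''.symm.trans (e2.1 h''.symm).symm)
    · have : v = sqrtQbar (u ^ 2) := by rw [h'', h', neg_neg]
      exact (e2.2 this).trans this.symm
  funext r
  obtain ⟨β, -, hr | hr⟩ := eq_lowerRoot_or_neg r
  · rw [Subtype.ext hr]; exact key β
  · rw [hΦ, hΨ, hr, map_sub, map_sub, map_one, map_one, ← hΦ, ← hΨ, key]

theorem image_split (m : ℕ) :
    (treeFinset (m + 1)).image split = treeFinset m ×ˢ univ := by
  refine eq_of_subset_of_card_le (fun p hp => ?_) ?_
  · obtain ⟨f, hf, rfl⟩ := mem_image.1 hp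
    obtain ⟨Φ, hΦ⟩ := mem_treeFinset.1 hf
    exact mem_product.2 ⟨mem_treeFinset.2 ⟨Φ, split_fst hΦ⟩, mem_univ _⟩
  · rw [card_image_of_injOn (split_injOn m), card_product, card_univ, Fintype.card_fun,
      Fintype.card_bool, Fintype.card_coe, card_iterRoots, card_treeFinset, card_treeFinset]
    have h1 := (tower_main m).1
    have h2 := (tower_main (m + 1)).1
    rw [show 2 ^ (m + 1) = 2 ^ m + 2 ^ m by ring, pow_add] at h2
    refine le_of_eq (Nat.eq_of_mul_eq_mul_right two_pos ?_)
    rw [h2, mul_right_comm, h1]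

theorem fixCount_eq {m : ℕ} {f : iterRoots (m + 1) → Qbar} (hf : f ∈ treeFinset (m + 1)) :
    fixCount f = ∑ β : iterRoots m, if (split f).1 β = β then
      (if (split f).2 β then 2 else 0) else 0 := by
  obtain ⟨Φ, hΦ⟩ := mem_treeFinset.1 hf
  obtain ⟨π, hπ⟩ : ∃ π : iterRoots (m + 1) → iterRoots m,
      ∀ r, (π r : Qbar) = (r : Qbar) ^ 2 - r + 1 :=
    ⟨fun r => ⟨_, mem_iterRoots_succ.1 r.2⟩, fun r => rfl⟩
  rw [fixCount, card_eq_sum_card_fiberwise (f := π) (t := univ) fun r _ => mem_univ _]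
  refine sum_congr rfl fun β _ => ?_
  have hne : (lowerRoot β : Qbar) ≠ 1 - lowerRoot β := fun e => by
    refine sqrt_disc_ne_zero β.2 ?_
    rw [← two_mul_lowerRoot_sub_one]
    linear_combination e
  have hfib : ∀ r : iterRoots (m + 1),
      π r = β ↔ ((r : Qbar) = lowerRoot β ∨ (r : Qbar) = 1 - (lowerRoot β : Qbar)) := fun r => by
    rw [← Subtype.coe_inj, hπ]
    constructor
    · intro e
      obtain ⟨β', hβ', h'⟩ := eq_lowerRoot_or_neg r
      rwa [show β' = β from Subtype.ext (hβ'.trans e)] at h'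
    · rintro (e | e) <;> rw [e] <;> linear_combination lowerRoot_sq β
  have hfix : ∀ r : iterRoots (m + 1), π r = β →
      (f r = r ↔ f (lowerRoot β) = lowerRoot β) := fun r hr => by
    rcases (hfib r).1 hr with hr | hr
    · rw [Subtype.ext hr]
    · rw [hΦ, hΦ, hr, map_sub, map_one, sub_right_inj]
  have hsplit : f (lowerRoot β) = lowerRoot β ↔ (split f).1 β = β ∧ (split f).2 β = true := by
    constructor
    · intro e
      have hs : sqrtQbar ((2 * (lowerRoot β : Qbar) - 1) ^ 2) = 2 * (lowerRoot β : Qbar) - 1 := by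
        rw [two_mul_lowerRoot_sub_one, sqrtQbar_sq]
      simp only [split, e, decide_eq_true_eq, hs, and_true, lowerRoot_sq]
    · rintro ⟨h1, h2⟩
      simp only [split, decide_eq_true_eq] at h1 h2
      rw [show (2 * f (lowerRoot β) - 1) ^ 2 = 4 * (β : Qbar) - 3 by linear_combination 4 * h1,
        ← two_mul_lowerRoot_sub_one] at h2
      linear_combination h2 / 2
  rw [filter_filter]
  by_cases hb : f (lowerRoot β) = lowerRoot β
  · rw [if_pos (hsplit.1 hb).1, if_pos (hsplit.1 hb).2]
    rw [show (univ.filter fun r => f r = r ∧ π r = β) =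
      ({lowerRoot β, ⟨1 - (lowerRoot β : Qbar), by
        rw [mem_iterRoots_succ, show (1 - (lowerRoot β : Qbar)) ^ 2 - (1 - lowerRoot β) + 1 =
          lowerRoot β ^ 2 - lowerRoot β + 1 by ring, lowerRoot_sq]
        exact β.2⟩} : Finset _) from ?_,
      card_pair fun e => hne (congrArg Subtype.val e)]
    ext r
    simp only [mem_filter, mem_univ, true_and, mem_insert, mem_singleton, ← Subtype.coe_inj]
    refine ⟨fun hr => (hfib r).1 (Subtype.ext hr.2), fun hr => ?_⟩
    have hr' := (hfib r).2 hr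
    exact ⟨(hfix r hr').2 hb, congrArg Subtype.val hr'⟩
  · rw [show (univ.filter fun r => f r = r ∧ π r = β) = ∅ from
      filter_eq_empty_iff.2 fun r _ hr => hb ((hfix r hr.2).1 hr.1), card_empty]
    split_ifs with h1 h2
    · exact absurd (hsplit.2 ⟨h1, h2⟩) hb
    · rfl
    · rfl

/-- **The generating function of the fixed roots.** -/
theorem sum_pow_fixCount (m : ℕ) : ∀ z : ℝ, ∑ f ∈ treeFinset m, z ^ fixCount f =
    (treeFinset m).card * (fun x => (1 + x ^ 2) / 2)^[m] z := by
  induction m with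
  | zero =>
    intro z
    have h1 : ∀ f ∈ treeFinset 0, fixCount f = 1 := fun f hf => by
      obtain ⟨Φ, hΦ⟩ := mem_treeFinset.1 hf
      rw [fixCount, filter_true_of_mem fun β _ => by
        rw [hΦ, mem_singleton.1 (show (β : Qbar) ∈ ({0} : Finset Qbar) from β.2), map_zero],
        card_univ, Fintype.card_coe, card_iterRoots, pow_zero]
    rw [sum_congr rfl fun f hf => by rw [h1 f hf, pow_one], sum_const, nsmul_eq_mul,
      Function.iterate_zero, id]
  | succ m ih =>
    intro z
    have hprod : ∀ f ∈ treeFinset (m + 1), z ^ fixCount f = ∏ β : iterRoots m,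
        (if (split f).1 β = β then (if (split f).2 β then z ^ 2 else 1) else 1) := fun f hf => by
      rw [fixCount_eq hf, ← prod_pow_eq_pow_sum]
      refine prod_congr rfl fun β _ => ?_
      split_ifs <;> simp
    rw [sum_congr rfl hprod, ← card_image_of_injOn (split_injOn m),
      ← sum_image (f := fun p : (iterRoots m → Qbar) × (iterRoots m → Bool) =>
        ∏ β : iterRoots m, if p.1 β = β then (if p.2 β then z ^ 2 else 1) else 1)
        (split_injOn m), image_split, card_product, sum_product, Function.iterate_succ_apply,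
      card_univ, Fintype.card_fun, Fintype.card_bool, Fintype.card_coe, card_iterRoots]
    have hin : ∀ g ∈ treeFinset m, (∑ ε : iterRoots m → Bool, ∏ β : iterRoots m,
        if g β = β then (if ε β then z ^ 2 else 1) else 1) =
        2 ^ 2 ^ m * ((1 + z ^ 2) / 2) ^ fixCount g := fun g _ => by
      rw [← Fintype.prod_sum (fun (β : iterRoots m) (b : Bool) =>
          if g β = β then (if b then z ^ 2 else 1) else (1 : ℝ)),
        show (2 : ℝ) ^ 2 ^ m = ∏ _β : iterRoots m, (2 : ℝ) by
          rw [prod_const, card_univ, Fintype.card_coe, card_iterRoots],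
        fixCount, ← prod_const, prod_filter, ← prod_mul_distrib]
      refine prod_congr rfl fun β _ => ?_
      rw [Fintype.sum_bool]
      split_ifs <;> simp_all <;> ring
    rw [sum_congr rfl hin, ← mul_sum, ih ((1 + z ^ 2) / 2)]
    push_cast
    ring

end FA.OdoniSylvester

end
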