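import Fermat.Agent.OdoniSylvester.Iterate
import Mathlib.GroupTheory.RegularWreathProduct
import Mathlib.GroupTheory.PGroup
import Mathlib.FieldTheory.Galois.Basic

/-!
# The Galois groups of the iterates of `X² - X + 1`

The argument of Stoll for `X² + a`: a fixed point of the involution given by a dependence among the
square roots would make `num (m + 1)` a square below.
-/

set_option autoImplicit false

noncomputable section

open Polynomial IntermediateField

open FA.Arboreal (Qbar sqrtQbar sqrtQbar_sq not_sq_bot multiquadratic_aux)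

namespace FA.OdoniSylvester

attribute [local instance] FA.Arboreal.isAlgebraic_qbar

theorem prod_disc_eq {m : ℕ} (hm : 0 < m) :
    ∏ β ∈ iterRoots m, (4 * β - 3) = ((num (m + 1) : ℤ) : Qbar) := by
  have hprod : (iterPoly m).map (algebraMap ℚ Qbar) = ∏ β ∈ iterRoots m, (X - C β) := by
    have e := (IsAlgClosed.splits ((iterPoly m).map (algebraMap ℚ Qbar))).eq_prod_roots_of_monic
      ((iterPoly_monic m).map _)
    rw [← aroots_def, aroots_iterPoly] at e
    exact e
  have e1 : aeval (3 / 4 : Qbar) (iterPoly m) = ∏ β ∈ iterRoots m, ((3 / 4 : Qbar) - β) := by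
    rw [← eval_map_algebraMap, hprod, eval_prod]
    simp
  rw [Finset.prod_congr rfl fun β _ =>
    show 4 * β - 3 = -4 * ((3 / 4 : Qbar) - β) by ring, Finset.prod_mul_distrib, ← e1,
    aeval_three_quarters, Finset.prod_const, card_iterRoots,
    Even.neg_pow (Nat.even_pow.2 ⟨even_two, by omega⟩), show (4 : Qbar) = 2 ^ 2 by norm_num,
    ← pow_mul, show 2 * 2 ^ m = 2 ^ (m + 1) by ring, mul_div_cancel₀ _ (pow_ne_zero _ two_ne_zero)]

/-- An automorphism of the splitting field permutes the roots. -/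
theorem aut_mem_iterRoots {m : ℕ} (σ : iterField m ≃ₐ[ℚ] iterField m) {β : iterField m}
    (hβ : (β : Qbar) ∈ iterRoots m) : ((σ β : iterField m) : Qbar) ∈ iterRoots m := by
  rw [mem_iterRoots] at hβ ⊢
  have e : aeval β (iterPoly m) = 0 := by
    apply Subtype.ext
    show (iterField m).val (aeval β (iterPoly m)) = 0
    rw [← aeval_algHom_apply]
    exact hβ
  have e2 := congrArg (fun x : iterField m => ((σ x : iterField m) : Qbar)) e
  simp only [← Polynomial.aeval_algHom_apply, map_zero, ZeroMemClass.coe_zero] at e2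
  rw [← e2]
  exact (aeval_algHom_apply (iterField m).val (σ β) (iterPoly m))

open scoped Classical in
/-- No non-empty product of the square roots lies in the field below. -/
theorem prod_sqrtSet_notMem {m : ℕ}
    (hdeg : Module.finrank ℚ (iterField m) * 2 = 2 ^ 2 ^ m)
    (hirr : Irreducible (iterPoly m)) :
    ∀ S : Finset Qbar, S ⊆ sqrtSet m → S.Nonempty → ∏ s ∈ S, s ∉ iterField m := by
  intro S hS hne hmem
  rcases Nat.eq_zero_or_pos m with rfl | hm
  · have hT : sqrtSet 0 = {sqrtQbar (4 * 0 - 3)} := by simp [sqrtSet, iterRoots]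
    rw [hT, Finset.subset_singleton_iff] at hS
    rcases hS with rfl | rfl
    · simp at hne
    rw [iterField_zero, Finset.prod_singleton] at hmem
    refine not_sq_bot (c := -3) (fun ⟨r, hr⟩ => by nlinarith [mul_self_nonneg r]) hmem ?_
    rw [sqrtQbar_sq]
    push_cast
    ring
  set K := iterField m with hK
  have := finiteDimensional_iterField m
  have := isSplittingField_iterField m
  have : Normal ℚ K := Normal.of_isSplittingField (iterPoly m)
  have : IsGalois ℚ K := ⟨⟩
  have hP : IsPGroup 2 (K ≃ₐ[ℚ] K) := by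
    refine IsPGroup.of_card (n := 2 ^ m - 1) ?_
    rw [IsGalois.card_aut_eq_finrank]
    have h1 : 1 ≤ 2 ^ m := Nat.one_le_two_pow
    rw [show 2 ^ m = 2 ^ m - 1 + 1 by omega, pow_succ] at hdeg
    omega
  -- the roots inside `K`
  set R : Finset K := (iterRoots m).preimage Subtype.val Subtype.val_injective.injOn with hR
  have hmemR : ∀ β : K, β ∈ R ↔ (β : Qbar) ∈ iterRoots m := fun β => Finset.mem_preimage
  let d : K → K := fun β => 4 * β - 3
  have hdQ : ∀ β : K, (d β : Qbar) = 4 * (β : Qbar) - 3 := fun β => by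
    show K.val (4 * β - 3) = _
    rw [map_sub, map_mul, map_ofNat, map_ofNat, IntermediateField.coe_val]
  have hd : ∀ β ∈ R, d β ≠ 0 := fun β hβ he => disc_ne_zero ((hmemR β).1 hβ) (by
    have := congrArg (fun x : K => (x : Qbar)) he
    simpa [hdQ] using this)
  let V : Type := {T : Finset K // T ⊆ R ∧ IsSquare (∏ β ∈ T, d β)}
  have hVfin : Finite V := Finite.of_injective
    (fun T : V => (⟨T.1, Finset.mem_powerset.2 T.2.1⟩ : R.powerset))
    fun x y e => Subtype.ext (congrArg (fun T : R.powerset => T.1) e)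
  let act : MulAction (K ≃ₐ[ℚ] K) V :=
    { smul := fun σ T => ⟨T.1.image σ, by
        refine ⟨fun x hx => ?_, ?_⟩
        · obtain ⟨β, hβ, rfl⟩ := Finset.mem_image.1 hx
          exact (hmemR _).2 (aut_mem_iterRoots σ ((hmemR β).1 (T.2.1 hβ)))
        · rw [Finset.prod_image σ.injective.injOn]
          obtain ⟨y, hy⟩ := T.2.2
          refine ⟨σ y, ?_⟩
          rw [← map_mul, ← hy, map_prod]
          exact Finset.prod_congr rfl fun β _ => by simp [d, map_ofNat]⟩
      one_smul := fun T => Subtype.ext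
        (show T.1.image (⇑(1 : K ≃ₐ[ℚ] K)) = T.1 from Finset.image_id)
      mul_smul := fun σ τ T => Subtype.ext (by
        show T.1.image (⇑(σ * τ)) = (T.1.image τ).image σ
        rw [Finset.image_image]
        rfl) }
  -- the given set
  set S₀ : Finset K := R.filter fun β => sqrtQbar (4 * (β : Qbar) - 3) ∈ S with hS₀
  have himg : S₀.image (fun β : K => sqrtQbar (4 * (β : Qbar) - 3)) = S := by
    ext s
    simp only [Finset.mem_image, hS₀, Finset.mem_filter]
    constructor
    · rintro ⟨β, ⟨-, hβ⟩, rfl⟩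
      exact hβ
    · intro hs
      obtain ⟨β, hβ, rfl⟩ := Finset.mem_image.1 (hS hs)
      exact ⟨⟨β, subset_adjoin ℚ _ hβ⟩, ⟨(hmemR _).2 hβ, hs⟩, rfl⟩
  have hS₀ne : S₀.Nonempty := by
    have h' := hne
    rw [← himg] at h'
    exact Finset.image_nonempty.1 h' 
  have hS₀V : S₀ ⊆ R ∧ IsSquare (∏ β ∈ S₀, d β) := by
    refine ⟨Finset.filter_subset _ _, ⟨⟨∏ s ∈ S, s, hmem⟩, Subtype.ext ?_⟩⟩
    rw [← sq]
    push_cast
    rw [← himg, Finset.prod_image, ← Finset.prod_pow]
    · exact Finset.prod_congr rfl fun β _ => by rw [sqrtQbar_sq, hdQ]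
    · intro x hx y hy e
      exact Subtype.ext (sqrt_disc_injOn m ((hmemR x).1 (Finset.mem_filter.1 hx).1)
        ((hmemR y).1 (Finset.mem_filter.1 hy).1) e)
  -- the symmetric difference with it is an involution of `V` without fixed points
  have hsymm : ∀ T : V, symmDiff T.1 S₀ ⊆ R ∧ IsSquare (∏ β ∈ symmDiff T.1 S₀, d β) := by
    rintro ⟨T, hT, hTsq⟩
    refine ⟨(Finset.union_subset (sdiff_le.trans hT) (sdiff_le.trans hS₀V.1)), ?_⟩
    have e : (∏ β ∈ symmDiff T S₀, d β) * (∏ β ∈ T ∩ S₀, d β) ^ 2 =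
        (∏ β ∈ T, d β) * ∏ β ∈ S₀, d β := by
      rw [← Finset.prod_union_inter (s₁ := T) (s₂ := S₀), sq, ← mul_assoc]
      congr 1
      have hdis : Disjoint (symmDiff T S₀) (T ∩ S₀) := Finset.disjoint_left.2 fun x h1 h2 => by
        simp only [Finset.mem_symmDiff, Finset.mem_inter] at h1 h2
        tauto
      have hun : symmDiff T S₀ ∪ T ∩ S₀ = T ∪ S₀ := by
        ext x
        simp only [Finset.mem_symmDiff, Finset.mem_inter, Finset.mem_union]
        tauto
      rw [← Finset.prod_union hdis, hun]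
    obtain ⟨y, hy⟩ := hTsq.mul hS₀V.2
    have h0 : ∏ β ∈ T ∩ S₀, d β ≠ 0 :=
      Finset.prod_ne_zero_iff.2 fun β hβ => hd β (hT (Finset.mem_of_mem_inter_left hβ))
    refine ⟨y / ∏ β ∈ T ∩ S₀, d β, ?_⟩
    rw [div_mul_div_comm, ← hy, ← e, sq, mul_div_assoc, div_self (mul_ne_zero h0 h0), mul_one]
  have heven : 2 ∣ Nat.card V := by
    have := Fintype.ofFinite V
    rw [Nat.card_eq_fintype_card, ← ZMod.natCast_eq_zero_iff, ← Finset.card_univ,
      Finset.card_eq_sum_ones, Nat.cast_sum]
    refine Finset.sum_involution (fun T _ => (⟨symmDiff T.1 S₀, hsymm T⟩ : V))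
      (fun _ _ => by rw [Nat.cast_one]; decide) (fun T _ _ he => ?_) (fun _ _ => Finset.mem_univ _)
      fun T _ => Subtype.ext (symmDiff_symmDiff_cancel_right _ _)
    have e := congrArg Subtype.val he
    exact hS₀ne.ne_empty (symmDiff_eq_left.1 e)
  let empt : V := ⟨∅, Finset.empty_subset R, by rw [Finset.prod_empty]; exact IsSquare.one⟩
  have hempt : empt ∈ MulAction.fixedPoints (K ≃ₐ[ℚ] K) V := fun σ =>
    Subtype.ext (Finset.image_empty _)
  obtain ⟨T, hTfix, hTne⟩ := hP.exists_fixed_point_of_prime_dvd_card_of_fixed_point V heven hempt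
  have hTne' : T.1.Nonempty := Finset.nonempty_iff_ne_empty.2 fun e => hTne (Subtype.ext e.symm)
  obtain ⟨β, hβ⟩ := hTne'
  have hmin : ∀ γ ∈ R, minpoly ℚ γ = iterPoly m := fun γ hγ => by
    rw [← minpoly.algebraMap_eq (algebraMap K Qbar).injective γ]
    exact (minpoly.eq_of_irreducible_of_monic hirr ((mem_iterRoots m).1 ((hmemR γ).1 hγ))
      (iterPoly_monic m)).symm
  have hall : T.1 = R := Finset.Subset.antisymm T.2.1 fun γ hγ => by
    obtain ⟨σ, hσ⟩ := (Normal.minpoly_eq_iff_mem_orbit K).1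
      ((hmin γ hγ).trans (hmin β (T.2.1 hβ)).symm)
    have e := congrArg Subtype.val (hTfix σ)
    rw [← e, ← hσ]
    exact Finset.mem_image_of_mem _ hβ
  obtain ⟨y, hy⟩ := T.2.2
  rw [hall] at hy
  refine num_not_sq_below m _ y.2 ?_
  have e := congrArg (fun x : K => (x : Qbar)) hy
  simp only [IntermediateField.coe_mul] at e
  rw [sq, ← e, ← prod_disc_eq hm]
  push_cast
  refine Finset.prod_bij (fun (β : K) _ => (β : Qbar)) (fun β hβ => (hmemR β).1 hβ)
    (fun _ _ _ _ e => Subtype.ext e)
    (fun x hx => ⟨⟨x, subset_adjoin ℚ _ hx⟩, (hmemR _).2 hx, rfl⟩) fun β _ => hdQ β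

/-- The degree of the next field and the irreducibility of the next iterate. -/
theorem tower_main (m : ℕ) :
    Module.finrank ℚ (iterField m) * 2 = 2 ^ 2 ^ m ∧ Irreducible (iterPoly m) := by
  classical
  induction m with
  | zero =>
    rw [iterField_zero, IntermediateField.finrank_bot, iterPoly]
    exact ⟨rfl, irreducible_X⟩
  | succ m ih =>
    obtain ⟨hdeg, hirr⟩ := ih
    have hind := prod_sqrtSet_notMem hdeg hirr
    obtain ⟨hd, -⟩ := multiquadratic_aux (iterField m) (sqrtSet m) (sqrtSet_sq_mem m) hind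
    rw [← iterField_succ, card_sqrtSet] at hd
    refine ⟨?_, ?_⟩
    · rw [hd, show 2 ^ (m + 1) = 2 ^ m + 2 ^ m by ring, pow_add,
        mul_right_comm (Module.finrank ℚ (iterField m)), hdeg]
    -- irreducibility
    obtain ⟨β, hβ⟩ : (iterRoots m).Nonempty :=
      Finset.card_pos.1 (by rw [card_iterRoots]; positivity)
    set r := (rootsAbove β).1 with hr
    have hrs : sqrtQbar (4 * β - 3) = 2 * r - 1 := by rw [hr, rootsAbove]; ring
    have hrK : r ∉ iterField m := fun hmem =>
      hind {sqrtQbar (4 * β - 3)} (Finset.singleton_subset_iff.2 (Finset.mem_image_of_mem _ hβ))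
        (Finset.singleton_nonempty _) (by
          rw [Finset.prod_singleton, hrs]
          exact sub_mem (mul_mem (IntermediateField.natCast_mem _ 2) hmem) (one_mem _))
    have hroot : aeval r (iterPoly (m + 1)) = 0 := by
      rw [← mem_iterRoots, mem_iterRoots_succ, hr, (rootsAbove_spec β).1]
      exact hβ
    have hβr : ℚ⟮β⟯ ≤ ℚ⟮r⟯ := by
      rw [adjoin_simple_le_iff, show β = r ^ 2 - r + 1 from (rootsAbove_spec β).1.symm]
      exact add_mem (sub_mem (pow_mem (mem_adjoin_simple_self ℚ r) 2) (mem_adjoin_simple_self ℚ r))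
        (one_mem _)
    have hβint : IsIntegral ℚ β := Algebra.IsIntegral.isIntegral β
    have hrint : IsIntegral ℚ r := Algebra.IsIntegral.isIntegral r
    have hβdeg : Module.finrank ℚ ℚ⟮β⟯ = 2 ^ m := by
      rw [adjoin.finrank hβint, ← minpoly.eq_of_irreducible_of_monic hirr
        ((mem_iterRoots m).1 hβ) (iterPoly_monic m), iterPoly_natDegree]
    have := adjoin.finiteDimensional hrint
    have hne : ℚ⟮β⟯ ≠ ℚ⟮r⟯ := fun e => hrK
      ((adjoin_simple_le_iff.2 (subset_adjoin ℚ _ hβ) : ℚ⟮β⟯ ≤ iterField m)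
        (e ▸ mem_adjoin_simple_self ℚ r))
    obtain ⟨k, hk⟩ := finrank_dvd_of_le_right hβr
    rw [hβdeg] at hk
    have hle : Module.finrank ℚ ℚ⟮r⟯ ≤ 2 ^ (m + 1) := by
      rw [adjoin.finrank hrint, ← iterPoly_natDegree (m + 1)]
      exact natDegree_le_of_dvd (minpoly.dvd ℚ r hroot) (iterPoly_monic _).ne_zero
    have hpos : 0 < Module.finrank ℚ ℚ⟮r⟯ := Module.finrank_pos
    have hk1 : k ≠ 1 := fun h1 => hne (eq_of_le_of_finrank_eq hβr (by rw [hβdeg, hk, h1, mul_one]))
    have hk2 : k = 2 := by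
      rw [hk, pow_succ] at hle
      have := Nat.le_of_mul_le_mul_left hle (by positivity)
      rcases Nat.eq_zero_or_pos k with h0 | h0
      · rw [hk, h0, mul_zero] at hpos; omega
      · omega
    have hmin : minpoly ℚ r = iterPoly (m + 1) :=
      (eq_of_monic_of_dvd_of_natDegree_le (minpoly.monic hrint) (iterPoly_monic _)
        (minpoly.dvd ℚ r hroot) (by
          rw [← adjoin.finrank hrint, hk, hk2, iterPoly_natDegree, pow_succ])).symm
    rw [← hmin]
    exact minpoly.irreducible hrint

/-- **Odoni's theorem**: the Galois group of the `m`-th iterate has order `2 ^ (2 ^ m - 1)`. -/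
theorem card_gal_iterPoly (m : ℕ) :
    Nat.card (iterPoly m).Gal = 2 ^ (2 ^ m - 1) := by
  have := isSplittingField_iterField m
  rw [Polynomial.Gal.card_of_separable (iterPoly_separable m),
    ← (IsSplittingField.algEquiv (iterField m) (iterPoly m)).toLinearEquiv.finrank_eq]
  have e := (tower_main m).1
  have h1 : 1 ≤ 2 ^ m := Nat.one_le_two_pow
  rw [show 2 ^ m = 2 ^ m - 1 + 1 by omega, pow_succ] at e
  omega

/-- The Galois group of the `m`-th iterate is the iterated wreath product of the group of order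
two. -/
theorem nonempty_gal_mulEquiv (m : ℕ) :
    Nonempty ((iterPoly m).Gal ≃* IteratedWreathProduct (Multiplicative (ZMod 2)) m) := by
  classical
  have : Fact (((iterPoly m).map (algebraMap ℚ Qbar)).Splits) := ⟨IsAlgClosed.splits _⟩
  have hcard : Nat.card ((iterPoly m).rootSet Qbar) = 2 ^ m := by
    rw [rootSet_iterPoly, Nat.card_coe_set_eq, Set.ncard_coe_finset, card_iterRoots]
  have hinj := Polynomial.Gal.galActionHom_injective (iterPoly m) Qbar
  have hrange : Nat.card (Polynomial.Gal.galActionHom (iterPoly m) Qbar).range =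
      2 ^ (Nat.factorial (2 ^ m)).factorization 2 := by
    rw [← Nat.card_congr (MonoidHom.ofInjective hinj).toEquiv, card_gal_iterPoly,
      Nat.multiplicity_eq_factorization Nat.prime_two (Nat.factorial_ne_zero _) |>.symm,
      Nat.Prime.multiplicity_factorial_pow Nat.prime_two, Nat.geomSum_eq le_rfl]
    simp
  let P : Sylow 2 (Equiv.Perm ((iterPoly m).rootSet Qbar)) :=
    Sylow.ofCard (Polynomial.Gal.galActionHom (iterPoly m) Qbar).range (by
      rw [hrange, Nat.card_perm, hcard])
  exact ⟨(MonoidHom.ofInjective hinj).trans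
    (Sylow.mulEquivIteratedWreathProduct 2 m _ hcard (Multiplicative (ZMod 2)) (by simp) P)⟩

end FA.OdoniSylvester

end
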