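import Fermat.Agent.OdoniSylvester.Num
import Fermat.Agent.Arboreal.Padic
import Fermat.Agent.Arboreal.Quadratic
import Fermat.Agent.Arboreal.Iterate

/-!
# The iterates of `X² - X + 1` and the tower of their splitting fields

The roots above `β` are `(1 ± √(4 β - 3)) / 2`, and `num (m + 1)` is no square in the `m`th field.
-/

set_option autoImplicit false

noncomputable section

open Polynomial IntermediateField
open FA.Arboreal (Qbar sqrtQbar sqrtQbar_sq not_sq_bot UnramInt UnramField ResField exists_sq_eq
  not_sq_of_odd multiquadratic_aux)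

namespace FA.OdoniSylvester

attribute [local instance] FA.Arboreal.isAlgebraic_qbar

/-- The `m`th iterate of `X² - X + 1`. -/
def iterPoly : ℕ → ℚ[X]
  | 0 => X
  | m + 1 => (iterPoly m).comp (X ^ 2 - X + 1)

/-- The two roots above `β`. -/
def rootsAbove (β : Qbar) : Qbar × Qbar :=
  ((1 + sqrtQbar (4 * β - 3)) / 2, (1 - sqrtQbar (4 * β - 3)) / 2)

open scoped Classical in
/-- The roots of the `m`th iterate. -/
def iterRoots : ℕ → Finset Qbar
  | 0 => {0}
  | m + 1 => (iterRoots m).biUnion fun β => {(rootsAbove β).1, (rootsAbove β).2}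

/-- The splitting field of the `m`th iterate. -/
def iterField (m : ℕ) : IntermediateField ℚ Qbar := adjoin ℚ (iterRoots m : Set Qbar)

theorem rootsAbove_spec (β : Qbar) :
    (rootsAbove β).1 ^ 2 - (rootsAbove β).1 + 1 = β ∧
      (rootsAbove β).2 ^ 2 - (rootsAbove β).2 + 1 = β := by
  have h := sqrtQbar_sq (4 * β - 3)
  constructor <;> simp only [rootsAbove] <;> field_simp <;> linear_combination h

theorem aeval_iterPoly_succ (m : ℕ) {A : Type*} [CommRing A] [Algebra ℚ A] (x : A) :
    aeval x (iterPoly (m + 1)) = aeval (x ^ 2 - x + 1) (iterPoly m) := by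
  rw [iterPoly, aeval_comp]
  simp

theorem aeval_num (m : ℕ) : ∀ j : ℕ,
    aeval ((num j : Qbar) / 2 ^ 2 ^ j) (iterPoly m) = (num (j + m) : Qbar) / 2 ^ 2 ^ (j + m) := by
  induction m with
  | zero => intro j; simp [iterPoly]
  | succ m ih =>
    intro j
    rw [aeval_iterPoly_succ, num_div_succ two_ne_zero, ih, show j + 1 + m = j + (m + 1) by omega]

theorem aeval_three_quarters (m : ℕ) :
    aeval (3 / 4 : Qbar) (iterPoly m) = (num (m + 1) : Qbar) / 2 ^ 2 ^ (m + 1) := by
  have h := aeval_num m 1
  rw [num_one, show 1 + m = m + 1 by omega] at h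
  rw [← h]
  norm_num

theorem mem_iterRoots_succ {m : ℕ} {x : Qbar} :
    x ∈ iterRoots (m + 1) ↔ x ^ 2 - x + 1 ∈ iterRoots m := by
  simp only [iterRoots, Finset.mem_biUnion, Finset.mem_insert, Finset.mem_singleton]
  constructor
  · rintro ⟨β, hβ, rfl | rfl⟩
    · rwa [(rootsAbove_spec β).1]
    · rwa [(rootsAbove_spec β).2]
  · intro h
    refine ⟨_, h, ?_⟩
    obtain ⟨s, hs⟩ : ∃ s, s = sqrtQbar (4 * (x ^ 2 - x + 1) - 3) := ⟨_, rfl⟩
    have hs2 : s ^ 2 = (2 * x - 1) ^ 2 := by rw [hs, sqrtQbar_sq]; ring
    simp only [rootsAbove, ← hs]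
    rcases sq_eq_sq_iff_eq_or_eq_neg.1 hs2 with e | e
    · left; rw [e]; ring
    · right; rw [e]; ring

theorem mem_iterRoots (m : ℕ) {x : Qbar} :
    x ∈ iterRoots m ↔ aeval x (iterPoly m) = 0 := by
  induction m generalizing x with
  | zero => simp [iterRoots, iterPoly]
  | succ m ih => rw [mem_iterRoots_succ, ih, aeval_iterPoly_succ]

theorem num_cast_ne_zero (n : ℕ) : (num n : Qbar) ≠ 0 := Int.cast_ne_zero.2 (num_pos n).ne'

theorem disc_ne_zero {m : ℕ} {β : Qbar} (hβ : β ∈ iterRoots m) : 4 * β - 3 ≠ 0 := fun he => by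
  rw [show β = 3 / 4 by linear_combination he / 4, mem_iterRoots, aeval_three_quarters,
    div_eq_zero_iff] at hβ
  exact hβ.elim (num_cast_ne_zero _) (pow_ne_zero _ two_ne_zero)

theorem sqrt_disc_ne_zero {m : ℕ} {β : Qbar} (hβ : β ∈ iterRoots m) :
    sqrtQbar (4 * β - 3) ≠ 0 := fun e =>
  disc_ne_zero hβ (by rw [← sqrtQbar_sq (4 * β - 3), e, zero_pow two_ne_zero])

theorem sqrt_disc_injOn (m : ℕ) :
    Set.InjOn (fun β : Qbar => sqrtQbar (4 * β - 3)) (iterRoots m) := fun x _ y _ he => by
  have e := congrArg (fun r : Qbar => r ^ 2) he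
  simp only [sqrtQbar_sq] at e
  linear_combination e / 4

theorem card_iterRoots (m : ℕ) : (iterRoots m).card = 2 ^ m := by
  classical
  induction m with
  | zero => simp [iterRoots]
  | succ m ih =>
    rw [iterRoots, Finset.card_biUnion]
    · rw [Finset.sum_congr rfl fun β hβ => Finset.card_pair ?_, Finset.sum_const, ih, smul_eq_mul,
        pow_succ]
      intro he
      refine sqrt_disc_ne_zero hβ ?_
      simp only [rootsAbove] at he
      linear_combination he
    · intro x _ y _ hxy
      rw [Function.onFun, Finset.disjoint_left]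
      intro r hr hr'
      have key : ∀ β : Qbar, r ∈ ({(rootsAbove β).1, (rootsAbove β).2} : Finset Qbar) →
          β = r ^ 2 - r + 1 := by
        intro β hβ
        simp only [Finset.mem_insert, Finset.mem_singleton] at hβ
        rcases hβ with rfl | rfl
        · exact (rootsAbove_spec β).1.symm
        · exact (rootsAbove_spec β).2.symm
      exact hxy ((key x hr).trans (key y hr').symm)

theorem natDegree_quad : (X ^ 2 - X + 1 : ℚ[X]).natDegree = 2 := by compute_degree!

theorem iterPoly_natDegree (m : ℕ) : (iterPoly m).natDegree = 2 ^ m := by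
  induction m with
  | zero => simp [iterPoly]
  | succ m ih => rw [iterPoly, natDegree_comp, ih, natDegree_quad, pow_succ]

theorem iterPoly_monic (m : ℕ) : (iterPoly m).Monic := by
  induction m with
  | zero => exact monic_X
  | succ m ih =>
    exact ih.comp (by monicity!) (by rw [natDegree_quad]; omega)

theorem aroots_iterPoly (m : ℕ) : (iterPoly m).aroots Qbar = (iterRoots m).val := by
  refine (Multiset.eq_of_le_of_card_le ?_ ?_).symm
  · exact (Multiset.le_iff_subset (iterRoots m).nodup).2 fun x hx =>
      mem_aroots.2 ⟨(iterPoly_monic m).ne_zero, (mem_iterRoots m).1 hx⟩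
  · rw [← Finset.card_def, card_iterRoots, ← iterPoly_natDegree m, aroots_def]
    exact (card_roots' _).trans natDegree_map_le

theorem rootSet_iterPoly (m : ℕ) : (iterPoly m).rootSet Qbar = (iterRoots m : Set Qbar) := by
  classical
  rw [rootSet_def, aroots_iterPoly, Finset.val_toFinset]

theorem iterPoly_separable (m : ℕ) : (iterPoly m).Separable := by
  classical
  rw [← separable_map (algebraMap ℚ Qbar),
    ← nodup_roots_iff_of_splits (map_ne_zero (iterPoly_monic m).ne_zero) (IsAlgClosed.splits _)]
  rw [← aroots_def, aroots_iterPoly]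
  exact (iterRoots m).nodup

theorem isSplittingField_iterField (m : ℕ) :
    IsSplittingField ℚ (iterField m) (iterPoly m) := by
  have e := IntermediateField.adjoin_rootSet_isSplittingField
    (K := ℚ) (L := Qbar) (p := iterPoly m) (IsAlgClosed.splits _)
  rwa [rootSet_iterPoly] at e

theorem finiteDimensional_iterField (m : ℕ) : FiniteDimensional ℚ (iterField m) :=
  finiteDimensional_adjoin fun x _ => Algebra.IsIntegral.isIntegral x

open scoped Classical in
/-- The square roots generating the next field. -/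
def sqrtSet (m : ℕ) : Finset Qbar :=
  (iterRoots m).image fun β => sqrtQbar (4 * β - 3)

theorem iterField_zero : iterField 0 = ⊥ := by
  rw [iterField, iterRoots, Finset.coe_singleton, adjoin_simple_eq_bot_iff]
  exact zero_mem _

theorem iterField_succ (m : ℕ) :
    iterField (m + 1) = iterField m ⊔ adjoin ℚ (sqrtSet m : Set Qbar) := by
  classical
  refine le_antisymm (adjoin_le_iff.2 fun x hx => ?_) (sup_le ?_ ?_)
  · rw [Finset.mem_coe, iterRoots, Finset.mem_biUnion] at hx
    obtain ⟨β, hβ, hx⟩ := hx
    have hs : sqrtQbar (4 * β - 3) ∈ iterField m ⊔ adjoin ℚ (sqrtSet m : Set Qbar) :=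
      (le_sup_right : adjoin ℚ (sqrtSet m : Set Qbar) ≤ _)
        (subset_adjoin _ _ (Finset.mem_image_of_mem _ hβ))
    have h2 : (2 : Qbar) ∈ iterField m ⊔ adjoin ℚ (sqrtSet m : Set Qbar) :=
      IntermediateField.natCast_mem _ 2
    simp only [Finset.mem_insert, Finset.mem_singleton] at hx
    rcases hx with rfl | rfl
    · exact div_mem (add_mem (one_mem _) hs) h2
    · exact div_mem (sub_mem (one_mem _) hs) h2
  · refine adjoin_le_iff.2 fun β hβ => ?_
    obtain ⟨r, hr⟩ : ∃ r, r = (rootsAbove β).1 := ⟨_, rfl⟩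
    have e : r ^ 2 - r + 1 = β := hr ▸ (rootsAbove_spec β).1
    have hm : r ∈ iterField (m + 1) :=
      subset_adjoin ℚ _ (Finset.mem_coe.2 (mem_iterRoots_succ.2 (e ▸ Finset.mem_coe.1 hβ)))
    rw [← e]
    exact add_mem (sub_mem (pow_mem hm 2) hm) (one_mem _)
  · refine adjoin_le_iff.2 fun x hx => ?_
    obtain ⟨β, hβ, rfl⟩ := Finset.mem_image.1 hx
    have hm : (rootsAbove β).1 ∈ iterField (m + 1) :=
      subset_adjoin ℚ _ (Finset.mem_coe.2 (mem_iterRoots_succ.2
        ((rootsAbove_spec β).1.symm ▸ hβ)))
    rw [show sqrtQbar (4 * β - 3) = 2 * (rootsAbove β).1 - 1 by simp only [rootsAbove]; ring]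
    exact sub_mem (mul_mem (IntermediateField.natCast_mem _ 2) hm) (one_mem _)

theorem card_sqrtSet (m : ℕ) : (sqrtSet m).card = 2 ^ m := by
  classical
  rw [sqrtSet, Finset.card_image_of_injOn (sqrt_disc_injOn m), card_iterRoots]

theorem sqrtSet_sq_mem (m : ℕ) : ∀ s ∈ sqrtSet m, s ^ 2 ∈ iterField m := by
  classical
  intro s hs
  obtain ⟨β, hβ, rfl⟩ := Finset.mem_image.1 hs
  rw [sqrtQbar_sq]
  exact sub_mem (mul_mem (IntermediateField.natCast_mem _ 4) (subset_adjoin ℚ _ hβ))
    (IntermediateField.natCast_mem _ 3)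

/-- **The critical numerator is no square in the field below**: it has a prime of odd valuation
unramified there. -/
theorem num_not_sq_below (m : ℕ) : ∀ y ∈ iterField m, y ^ 2 ≠ ((num (m + 1) : ℤ) : Qbar) := by
  classical
  obtain ⟨p, hp, hp2, hpd, hodd⟩ := exists_odd_valuation (Nat.succ_pos m)
  have := Fact.mk hp
  set Ω := AlgebraicClosure (UnramField p)
  have : CharZero Ω := charZero_of_injective_algebraMap (algebraMap (UnramField p) Ω).injective
  let φ : Qbar →ₐ[ℚ] Ω := IsAlgClosed.lift
  let ι : UnramInt p →+* Ω := (algebraMap (UnramField p) Ω).comp (algebraMap (UnramInt p) _)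
  have hR2 : (2 : ResField p) ≠ 0 := fun h => hp2 ((Nat.prime_dvd_prime_iff_eq hp Nat.prime_two).1
    ((CharP.cast_eq_zero_iff (ResField p) p 2).1 (by exact_mod_cast h)))
  have hu2 : IsUnit (2 : UnramInt p) := by
    refine WittVector.isUnit_of_coeff_zero_ne_zero _ ?_
    show WittVector.constantCoeff (2 : UnramInt p) ≠ 0
    rw [map_ofNat]
    exact hR2
  obtain ⟨t, ht⟩ : ∃ t : UnramInt p, 2 * t = 1 := hu2.exists_right_inv
  let g : ∀ {A : Type}, [CommRing A] → A → A := fun {A} _ x => x ^ 2 - x + 1
  have hlift : ∀ j ≤ m, ∀ β ∈ iterRoots j, ∃ w : UnramInt p, ι w = φ β ∧ g^[j] w = 0 := by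
    intro j
    induction j with
    | zero =>
      intro _ β hβ
      rw [iterRoots, Finset.mem_singleton] at hβ
      subst hβ
      exact ⟨0, by simp, rfl⟩
    | succ j ih =>
      intro hj r hr
      rw [mem_iterRoots_succ] at hr
      obtain ⟨w, hw, hw0⟩ := ih (by omega) _ hr
      have horb : ∀ i k : ℕ, g^[i] ((num k : ResField p) / 2 ^ 2 ^ k) =
          (num (k + i) : ResField p) / 2 ^ 2 ^ (k + i) := by
        intro i
        induction i with
        | zero => intro k; rfl
        | succ i hi =>
          intro k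
          rw [Function.iterate_succ_apply, show g ((num k : ResField p) / 2 ^ 2 ^ k) =
            (num (k + 1) : ResField p) / 2 ^ 2 ^ (k + 1) from num_div_succ hR2 k, hi,
            show k + 1 + i = k + (i + 1) by omega]
      have hmap : ∀ (i : ℕ) (z : UnramInt p),
          WittVector.constantCoeff (g^[i] z) = g^[i] (WittVector.constantCoeff z) := by
        intro i
        induction i with
        | zero => intro z; rfl
        | succ i hi =>
          intro z
          rw [Function.iterate_succ_apply, Function.iterate_succ_apply, hi]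
          simp only [g, map_add, map_sub, map_pow, map_one]
      have hu : WittVector.constantCoeff (4 * w - 3) ≠ 0 := by
        intro he
        rw [map_sub, map_mul, map_ofNat, map_ofNat, sub_eq_zero] at he
        have e := congrArg WittVector.constantCoeff hw0
        have h4 : (4 : ResField p) ≠ 0 := by
          rw [show (4 : ResField p) = 2 * 2 by norm_num]; exact mul_ne_zero hR2 hR2
        rw [hmap, map_zero, show WittVector.constantCoeff w =
          (num 1 : ResField p) / 2 ^ 2 ^ 1 by
            rw [num_one, eq_div_iff (pow_ne_zero _ hR2)]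
            push_cast
            linear_combination he, horb, div_eq_zero_iff] at e
        refine num_cast_ne_zero_of_zero hR2 (show 1 + j < m + 1 by omega)
          (e.resolve_right (pow_ne_zero _ hR2)) ?_
        exact (CharP.intCast_eq_zero_iff (ResField p) p _).2 hpd
      obtain ⟨z, hz⟩ := exists_sq_eq p hp2 hu
      have e : (ι z) ^ 2 = (2 * φ r - 1) ^ 2 := by
        rw [← map_pow, hz, map_sub, map_mul, hw, map_ofNat, map_ofNat, map_add, map_sub, map_pow,
          map_one]
        ring
      have hz' : ∀ z' : UnramInt p, z' ^ 2 = z ^ 2 → g^[j + 1] (t * (1 + z')) = 0 := fun z' he => by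
        rw [Function.iterate_succ_apply, show g (t * (1 + z')) = w from ?_, hw0]
        show (t * (1 + z')) ^ 2 - t * (1 + z') + 1 = w
        rw [hz] at he
        linear_combination t ^ 2 * he + (t + z' * t + (2 * t + 1) * w - (2 * t + 1)) * ht
      have hιt : ι t * 2 = 1 := by
        have := congrArg ι ht
        rw [map_mul, map_ofNat, map_one] at this
        linear_combination this
      rcases sq_eq_sq_iff_eq_or_eq_neg.1 e with e' | e'
      · refine ⟨t * (1 + z), ?_, hz' z rfl⟩
        rw [map_mul, map_add, map_one, e']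
        linear_combination (φ r) * hιt
      · refine ⟨t * (1 + -z), ?_, hz' _ (neg_sq z)⟩
        rw [map_mul, map_add, map_one, map_neg, e']
        linear_combination (φ r) * hιt
  intro y hy hy2
  have hle : ∀ x ∈ iterField m, φ x ∈ (algebraMap (UnramField p) Ω).fieldRange := by
    intro x hx
    induction hx using IntermediateField.adjoin_induction with
    | mem x hx =>
      obtain ⟨w, hw, -⟩ := hlift m le_rfl x hx
      exact ⟨algebraMap _ _ w, hw⟩
    | algebraMap q =>
      rw [AlgHom.commutes, eq_ratCast]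
      exact SubfieldClass.ratCast_mem _ q
    | add _ _ _ _ h1 h2 => rw [map_add]; exact add_mem h1 h2
    | inv _ _ h1 => rw [map_inv₀]; exact inv_mem h1
    | mul _ _ _ _ h1 h2 => rw [map_mul]; exact mul_mem h1 h2
  obtain ⟨l, hl⟩ := hle y hy
  refine not_sq_of_odd p (num_pos _).ne' hodd l ((algebraMap (UnramField p) Ω).injective ?_)
  rw [map_pow, hl, ← map_pow, hy2, map_intCast, map_intCast]

end FA.OdoniSylvester

end
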