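import Fermat.Agent.OdoniSylvester.Fixed
import Fermat.Agent.OdoniJones.Main

/-!
# Odoni's theorem on Sylvester's sequence

The primes modulo which the `m`th iterate of `X² - X + 1` has a root have density `fixProp m`, so
those dividing a term of Sylvester's sequence have density zero.
-/

set_option autoImplicit false
set_option linter.style.haveILetI false

noncomputable section

open Polynomial IntermediateField Filter Topology
open Fermat.Agent.RootsModP (rootsMod fixedRoots exists_bad_primes_roots fixedRoots_conj)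
open FA.HasseEvenOrder (HasPrimeDensity primeCount hasPrimeDensity_of_frobenius)
open FA.OdoniJones (fixProp fixProp_bounds iterate_zero_eq)
open FA.Arboreal (Qbar)
open scoped Classical

namespace FA.OdoniSylvester

attribute [local instance] FA.Arboreal.isAlgebraic_qbar

/-- The `m`th iterate over `ℤ`. -/
def iterInt : ℕ → ℤ[X]
  | 0 => X
  | m + 1 => (iterInt m).comp (X ^ 2 - X + 1)

theorem map_iterInt (m : ℕ) : (iterInt m).map (Int.castRingHom ℚ) = iterPoly m := by
  induction m with
  | zero => simp [iterInt, iterPoly]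
  | succ m ih => simp [iterInt, iterPoly, Polynomial.map_comp, ih]

theorem monic_iterInt (m : ℕ) : (iterInt m).Monic :=
  monic_of_injective (f := Int.castRingHom ℚ) Int.cast_injective (by
    rw [map_iterInt]; exact iterPoly_monic m)

theorem eval_map_iterInt {R : Type} [CommRing R] (m : ℕ) : ∀ x : R,
    ((iterInt m).map (Int.castRingHom R)).eval x = (fun y => y ^ 2 - y + 1)^[m] x := by
  induction m with
  | zero => intro x; simp [iterInt]
  | succ m ih =>
    intro x
    simp [iterInt, Polynomial.map_comp, Function.iterate_succ_apply, ih]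

theorem fixedRoots_eq_fixCount {m : ℕ} [NumberField (iterField m)]
    (σ : iterField m ≃ₐ[ℚ] iterField m) :
    fixedRoots (iterInt m) σ = fixCount (toMap σ) := by
  have hmem : ∀ x : iterField m, x ∈ (iterPoly m).rootSet (iterField m) ↔
      (x : Qbar) ∈ iterRoots m := fun x => by
    rw [mem_rootSet, mem_iterRoots, and_iff_right (iterPoly_monic m).ne_zero,
      IntermediateField.aeval_coe, ZeroMemClass.coe_eq_zero]
    exact iff_of_eq (by rw [aeval_def, aeval_def, Subsingleton.elim (algebraMap ℚ (iterField m))])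
  rw [fixedRoots, map_iterInt, fixCount, ← Set.ncard_coe_finset]
  refine Set.ncard_congr (fun x hx => ⟨x, (hmem x).1 hx.1⟩) (fun x hx => ?_)
    (fun x y _ _ e => Subtype.ext (Subtype.mk.inj e)) fun β hβ => ?_
  · simp only [Finset.coe_filter, Finset.mem_univ, true_and, Set.mem_ofPred_eq]
    exact congrArg Subtype.val hx.2
  · simp only [Finset.coe_filter, Finset.mem_univ, true_and, Set.mem_ofPred_eq] at hβ
    exact ⟨⟨β, subset_adjoin ℚ _ β.2⟩, ⟨(hmem _).2 β.2, Subtype.ext hβ⟩, rfl⟩

/-- **The primes modulo which the iterate has a root.** -/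
theorem hasPrimeDensity_root (m : ℕ) :
    HasPrimeDensity (fun p => rootsMod (iterInt m) p ≠ 0) (fixProp m) := by
  haveI := normal_iterField m
  haveI := finiteDimensional_iterField m
  haveI : NumberField (iterField m) := { }
  haveI : IsGalois ℚ (iterField m) := ⟨⟩
  haveI := isSplittingField_iterField m
  have hsep : ((iterInt m).map (Int.castRingHom ℚ)).Separable := by
    rw [map_iterInt]; exact iterPoly_separable m
  have hs : (((iterInt m).map (Int.castRingHom ℚ)).map
      (algebraMap ℚ (iterField m))).Splits := by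
    rw [map_iterInt]; exact IsSplittingField.splits (iterField m) (iterPoly m)
  obtain ⟨N, hN0, hN⟩ := exists_bad_primes_roots (monic_iterInt m) hsep hs
  have hd := hasPrimeDensity_of_frobenius (L := iterField m)
    (P := fun p => rootsMod (iterInt m) p ≠ 0) (C := fun σ => fixedRoots (iterInt m) σ ≠ 0)
    (fun g x hg => by rw [fixedRoots_conj]; exact hg) hN0
    fun q hq hd Q hQ hqQ τ hτ => by rw [hN q hq hd Q hQ hqQ τ hτ]
  convert hd using 1
  -- the proportion
  have hbij := bijOn_toMap m
  have hsum := sum_pow_fixCount m 0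
  simp only [zero_pow_eq, iterate_zero_eq] at hsum
  rw [Finset.sum_boole] at hsum
  have hcount : Nat.card {σ : iterField m ≃ₐ[ℚ] iterField m |
      fixedRoots (iterInt m) σ ≠ 0} =
        ((treeFinset m).filter fun f => ¬ fixCount f = 0).card := by
    rw [← Nat.card_eq_finsetCard]
    refine Nat.card_congr (Equiv.ofBijective (fun σ => ⟨toMap σ.1, Finset.mem_filter.2
      ⟨hbij.1 (Set.mem_univ _), fun e => σ.2 ((fixedRoots_eq_fixCount σ.1).trans e)⟩⟩)
      ⟨fun σ σ' e => Subtype.ext (hbij.2.1 (Set.mem_univ _) (Set.mem_univ _)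
        (congrArg Subtype.val e)), fun f => ?_⟩)
    obtain ⟨σ, -, hσ⟩ := hbij.2.2 (Finset.mem_filter.1 f.2).1
    refine ⟨⟨σ, ?_⟩, Subtype.ext hσ⟩
    show fixedRoots (iterInt m) σ ≠ 0
    rw [fixedRoots_eq_fixCount, hσ]
    exact (Finset.mem_filter.1 f.2).2
  have hpos : (0 : ℝ) < (treeFinset m).card := by
    rw [card_treeFinset]; exact Nat.cast_pos.2 Module.finrank_pos
  rw [hcount, IsGalois.card_aut_eq_finrank, ← card_treeFinset, eq_div_iff hpos.ne']
  have := Finset.card_filter_add_card_filter_not (fun f => fixCount f = 0) (s := treeFinset m)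
  have h2 := congrArg (fun n : ℕ => (n : ℝ)) this
  push_cast at h2
  linarith

/-- Sylvester's sequence `2, 3, 7, 43, …`. -/
def sylvesterSeq (n : ℕ) : ℕ := (fun x => x * (x - 1) + 1)^[n] 2

theorem two_le_sylvesterSeq (n : ℕ) : 2 ≤ sylvesterSeq n := by
  induction n with
  | zero => exact le_rfl
  | succ n ih =>
    rw [sylvesterSeq, Function.iterate_succ_apply']
    show 2 ≤ sylvesterSeq n * (sylvesterSeq n - 1) + 1
    have : 1 ≤ sylvesterSeq n * (sylvesterSeq n - 1) := Nat.mul_pos (by omega) (by omega)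
    omega

theorem cast_sylvesterSeq {R : Type} [CommRing R] (j : ℕ) : ∀ m : ℕ,
    (fun y : R => y ^ 2 - y + 1)^[m] (sylvesterSeq j : R) = (sylvesterSeq (j + m) : R) := by
  intro m
  induction m with
  | zero => rfl
  | succ m ih =>
    rw [Function.iterate_succ_apply', ih]
    show _ = (((fun x => x * (x - 1) + 1)^[j + m + 1] 2 : ℕ) : R)
    rw [Function.iterate_succ_apply']
    show _ = ((sylvesterSeq (j + m) * (sylvesterSeq (j + m) - 1) + 1 : ℕ) : R)
    rw [Nat.cast_add, Nat.cast_mul, Nat.cast_sub (le_trans (by norm_num) (two_le_sylvesterSeq _)),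
      Nat.cast_one]
    ring

/-- **Odoni: the primes dividing a term of Sylvester's sequence have density zero.** -/
theorem hasPrimeDensity_sylvester :
    HasPrimeDensity (fun p => ∃ n, p ∣ sylvesterSeq n) 0 := by
  refine tendsto_order.2 ⟨fun b hb => Eventually.of_forall fun N => hb.trans_le (by positivity),
    fun b hb => ?_⟩
  obtain ⟨m, hm⟩ := exists_nat_gt (2 / b)
  have hmb : fixProp m < b := by
    refine (fixProp_bounds m).2.trans_lt ?_
    rw [div_lt_iff₀ (by positivity)]
    rw [div_lt_iff₀ hb] at hm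
    linarith
  have hfin : HasPrimeDensity (fun p => ∃ n, n < m ∧ p ∣ sylvesterSeq n) 0 :=
    .of_finite (((Set.finite_Iio m).biUnion
      (t := fun n => ((sylvesterSeq n).primeFactors : Set ℕ))
      fun n _ => Finset.finite_toSet _).subset fun p hp => by
        obtain ⟨hp', n, hnm, hpn⟩ := hp
        exact Set.mem_biUnion (show n ∈ Set.Iio m from hnm) (Finset.mem_coe.2
          (Nat.mem_primeFactors.2 ⟨hp', hpn, by have := two_le_sylvesterSeq n; omega⟩)))
  have hlim := hfin.add (hasPrimeDensity_root m)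
  rw [zero_add] at hlim
  filter_upwards [hlim.eventually (eventually_lt_nhds hmb)] with N hN
  refine lt_of_le_of_lt ?_ hN
  rw [← add_div, ← add_mul, ← Nat.cast_add]
  refine div_le_div_of_nonneg_right (mul_le_mul_of_nonneg_right (Nat.cast_le.2 ?_)
    (Real.log_natCast_nonneg N)) (Nat.cast_nonneg N)
  rw [← FA.HasseEvenOrder.primeCount_add (fun p => ∃ n, p ∣ sylvesterSeq n)
    (fun p => ∃ n, n < m ∧ p ∣ sylvesterSeq n)]
  refine Nat.add_le_add (FA.HasseEvenOrder.primeCount_mono (fun p _ hp => hp.2) N)
    (FA.HasseEvenOrder.primeCount_mono (fun p hp hp' => ?_) N)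
  obtain ⟨⟨n, hpn⟩, hsmall⟩ := hp'
  obtain ⟨j, rfl⟩ : ∃ j, n = j + m :=
    ⟨n - m, (Nat.sub_add_cancel (not_lt.1 fun hlt => hsmall ⟨n, hlt, hpn⟩)).symm⟩
  haveI : Fact p.Prime := ⟨hp⟩
  refine ((Set.ncard_pos (Set.toFinite _)).2 ⟨(sylvesterSeq j : ZMod p), ?_⟩).ne'
  show ((iterInt m).map (Int.castRingHom (ZMod p))).eval (sylvesterSeq j : ZMod p) = 0
  rw [eval_map_iterInt, cast_sylvesterSeq, ZMod.natCast_eq_zero_iff]
  exact hpn

end FA.OdoniSylvester

end
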