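import Mathlib.NumberTheory.Padics.PadicVal.Basic
import Mathlib.Data.Nat.Squarefree
import Mathlib.Tactic.LinearCombination
import Mathlib.Tactic.FieldSimp

/-!
# The critical orbit of `X² - X + 1`

The `n`th value at `1 / 2` is `num n / 2 ^ 2 ^ n`. The numerators `3, 13, 217, …` are positive odd
non-squares and pairwise coprime, as `0 ↦ 1 ↦ 1`.
-/

set_option autoImplicit false

namespace FA.OdoniSylvester

/-- The numerators. -/
def num : ℕ → ℤ
  | 0 => 1
  | n + 1 => num n ^ 2 - 2 ^ 2 ^ n * num n + 2 ^ 2 ^ (n + 1)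

theorem num_succ (n : ℕ) : num (n + 1) = num n ^ 2 - 2 ^ 2 ^ n * num n + 2 ^ 2 ^ (n + 1) := rfl

theorem num_one : num 1 = 3 := by norm_num [num]

theorem num_two : num 2 = 13 := by norm_num [num]

theorem num_pos (n : ℕ) : 0 < num n := by
  rcases n with - | n
  · exact one_pos
  have h : (0 : ℤ) < 2 ^ 2 ^ n := by positivity
  rw [num_succ, pow_succ 2 n, pow_mul]
  nlinarith [sq_nonneg (num n - 2 ^ 2 ^ n), sq_nonneg (num n)]

theorem num_odd (n : ℕ) : num n % 2 = 1 := by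
  induction n with
  | zero => rfl
  | succ n ih =>
    obtain ⟨c, hc⟩ : (2 : ℤ) ∣ 2 ^ 2 ^ n := dvd_pow_self 2 (by positivity)
    obtain ⟨d, hd⟩ : ∃ d, num n = 2 * d + 1 := ⟨num n / 2, by omega⟩
    rw [num_succ, pow_succ 2 n, pow_mul, hc, hd,
      show (2 * d + 1) ^ 2 - 2 * c * (2 * d + 1) + (2 * c) ^ 2 =
        2 * (2 * d ^ 2 + 2 * d - c * (2 * d + 1) + 2 * c ^ 2) + 1 by ring]
    omega

theorem num_mod_five {n : ℕ} (hn : 2 ≤ n) :
    (2 : ℤ) ^ 2 ^ n % 5 = 1 ∧ (num n % 5 = 2 ∨ num n % 5 = 3) := by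
  induction n, hn using Nat.le_induction with
  | base => exact ⟨by norm_num, Or.inr (by rw [num_two]; norm_num)⟩
  | succ n _ ih =>
    obtain ⟨h1, h2⟩ := ih
    obtain ⟨c, hc⟩ : ∃ c, (2 : ℤ) ^ 2 ^ n = 5 * c + 1 := ⟨2 ^ 2 ^ n / 5, by omega⟩
    have hc' : (2 : ℤ) ^ 2 ^ (n + 1) = (5 * c + 1) ^ 2 := by rw [pow_succ 2 n, pow_mul, hc]
    refine ⟨?_, ?_⟩
    · rw [hc', show (5 * c + 1) ^ 2 = 5 * (5 * c ^ 2 + 2 * c) + 1 by ring]
      omega
    · rw [num_succ, hc', hc]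
      rcases h2 with h2 | h2
      · obtain ⟨d, hd⟩ : ∃ d, num n = 5 * d + 2 := ⟨num n / 5, by omega⟩
        rw [hd, show (5 * d + 2) ^ 2 - (5 * c + 1) * (5 * d + 2) + (5 * c + 1) ^ 2 =
          5 * (5 * d ^ 2 + 3 * d - 5 * c * d + 5 * c ^ 2) + 3 by ring]
        omega
      · obtain ⟨d, hd⟩ : ∃ d, num n = 5 * d + 3 := ⟨num n / 5, by omega⟩
        rw [hd, show (5 * d + 3) ^ 2 - (5 * c + 1) * (5 * d + 3) + (5 * c + 1) ^ 2 =
          5 * (5 * d ^ 2 + 5 * d - 5 * c * d - c + 5 * c ^ 2 + 1) + 2 by ring]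
        omega

theorem num_not_isSquare {n : ℕ} (hn : 0 < n) : ¬ IsSquare (num n) := by
  rintro ⟨r, hr⟩
  rcases (show n = 1 ∨ 2 ≤ n by omega) with rfl | h2
  · rw [num_one] at hr
    have h1 : r ≤ 1 := by nlinarith
    have h2 : -1 ≤ r := by nlinarith
    interval_cases r <;> omega
  · have h := (num_mod_five h2).2
    rw [hr, Int.mul_emod] at h
    have h1 := Int.emod_nonneg r (show (5 : ℤ) ≠ 0 by norm_num)
    have h2 := Int.emod_lt_of_pos r (show (0 : ℤ) < 5 by norm_num)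
    generalize r % 5 = s at h h1 h2
    interval_cases s <;> omega

/-- An odd prime of odd valuation. -/
theorem exists_odd_valuation {n : ℕ} (hn : 0 < n) :
    ∃ p : ℕ, p.Prime ∧ p ≠ 2 ∧ (p : ℤ) ∣ num n ∧ Odd (padicValInt p (num n)) := by
  obtain ⟨c, hc⟩ : ∃ c : ℕ, (c : ℤ) = num n := ⟨(num n).natAbs, Int.natAbs_of_nonneg (num_pos n).le⟩
  have hc0 : c ≠ 0 := fun h => (num_pos n).ne' (by rw [← hc, h, Nat.cast_zero])
  have hns : ¬ IsSquare c := fun h => num_not_isSquare hn (hc ▸ Int.isSquare_natCast_iff.2 h)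
  obtain ⟨p, hp⟩ : ∃ p, Odd (c.factorization p) := by
    by_contra hall
    push Not at hall
    refine hns ⟨∏ p ∈ c.primeFactors, p ^ (c.factorization p / 2), ?_⟩
    conv_lhs => rw [← Nat.prod_factorization_pow_eq_self hc0]
    rw [Nat.prod_factorization_eq_prod_primeFactors, ← Finset.prod_mul_distrib]
    refine Finset.prod_congr rfl fun p _ => ?_
    rw [← pow_add]
    congr 1
    have := Nat.not_odd_iff.1 (hall p)
    omega
  have hne : c.factorization p ≠ 0 := fun h => by rw [h] at hp; exact absurd hp (by decide)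
  have hmem : p ∈ c.primeFactors := by
    rw [← Nat.support_factorization, Finsupp.mem_support_iff]; exact hne
  have hpp := Nat.prime_of_mem_primeFactors hmem
  have hd := Nat.dvd_of_mem_primeFactors hmem
  refine ⟨p, hpp, fun e => ?_, hc ▸ Int.natCast_dvd_natCast.2 hd, ?_⟩
  · subst e
    have h2 := num_odd n
    rw [← hc] at h2
    omega
  · rw [← hc, padicValInt.of_nat, ← Nat.factorization_def c hpp]
    exact hp

variable {K : Type} [Field K]

theorem num_div_succ (h2 : (2 : K) ≠ 0) (n : ℕ) :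
    ((num n : K) / 2 ^ 2 ^ n) ^ 2 - (num n : K) / 2 ^ 2 ^ n + 1 =
      (num (n + 1) : K) / 2 ^ 2 ^ (n + 1) := by
  have h : (2 : K) ^ 2 ^ n ≠ 0 := pow_ne_zero _ h2
  rw [num_succ, pow_succ 2 n, pow_mul, pow_mul]
  push_cast
  field_simp

theorem num_cast_ne_zero_of_zero (h2 : (2 : K) ≠ 0) {i k : ℕ} (hik : i < k)
    (h : (num i : K) = 0) : (num k : K) ≠ 0 := by
  have key : ∀ d, (num (i + 1 + d) : K) / 2 ^ 2 ^ (i + 1 + d) = 1 := by
    intro d
    induction d with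
    | zero => rw [add_zero, ← num_div_succ h2, h]; simp
    | succ d ih => rw [← add_assoc, ← num_div_succ h2, ih]; ring
  intro hk
  have := key (k - (i + 1))
  rw [show i + 1 + (k - (i + 1)) = k by omega, hk, zero_div] at this
  exact zero_ne_one this

end FA.OdoniSylvester
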